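import Fermat.Agent.Sidon.Bose
import Fermat.Agent.Root.SummaryPrimeNumberTheorem

/-!
# The largest Sidon subset of `[1, N]` has `∼ √N` elements
-/

set_option autoImplicit false

noncomputable section

namespace FA.Sidon

open Finset Filter Topology

open scoped Classical in
/-- The largest size of a Sidon subset of `[1, N]`. -/
def maxSidon (N : ℕ) : ℕ := ((Icc 1 N).powerset.filter IsSidonSet).sup card

theorem card_le_maxSidon {A : Finset ℕ} (hs : IsSidonSet A) {N : ℕ} (hA : A ⊆ Icc 1 N) :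
    A.card ≤ maxSidon N := by
  classical
  exact le_sup (f := card) (mem_filter.2 ⟨mem_powerset.2 hA, hs⟩)

theorem maxSidon_le (N : ℕ) : (maxSidon N : ℝ) ≤ √N + √√N + 1 := by
  classical
  rcases ((Icc 1 N).powerset.filter IsSidonSet).eq_empty_or_nonempty with h | h
  · rw [maxSidon, h, sup_empty, Nat.bot_eq_zero, Nat.cast_zero]
    positivity
  · obtain ⟨A, hA, he⟩ := exists_mem_eq_sup _ h card
    rw [mem_filter, mem_powerset] at hA
    rw [maxSidon, he]
    exact card_le_sqrt_add hA.2 hA.1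

theorem eventually_le_maxSidon {ε : ℝ} (hε : 0 < ε) :
    ∀ᶠ N : ℕ in atTop, (1 - ε) * √N ≤ maxSidon N := by
  have hs : Tendsto (fun N : ℕ => √(N : ℝ) / (1 + ε)) atTop atTop :=
    (Real.tendsto_sqrt_atTop.comp tendsto_natCast_atTop_atTop).atTop_div_const (by linarith)
  filter_upwards [hs.eventually (FA.PNT.Summary.exists_prime_between (q := 1)
    (a := (1 : ZMod 1)) isUnit_one hε)] with N hN
  obtain ⟨p, hp, -, hlo, hhi⟩ := hN
  rw [mul_div_cancel₀ _ (by linarith : (1 : ℝ) + ε ≠ 0)] at hhi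
  obtain ⟨A, hA, hcard, hA'⟩ := exists_bose_set hp
  have hpN : p ^ 2 ≤ N := by
    have := pow_le_pow_left₀ (Nat.cast_nonneg p) hhi 2
    rw [Real.sq_sqrt (Nat.cast_nonneg N)] at this
    exact_mod_cast this
  have hle : (A.card : ℝ) ≤ maxSidon N := Nat.cast_le.2 <| card_le_maxSidon
    (fun a ha b hb c hc d hd h => hA' a ha b hb c hc d hd (by rw [h]))
    (hA.trans (Icc_subset_Icc le_rfl (by omega)))
  rw [hcard] at hle
  refine le_trans ?_ hle
  refine le_trans ?_ hlo.le
  rw [le_div_iff₀ (by linarith)]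
  nlinarith [Real.sqrt_nonneg (N : ℝ), mul_nonneg (sq_nonneg ε) (Real.sqrt_nonneg (N : ℝ))]

theorem tendsto_maxSidon_div :
    Tendsto (fun N : ℕ => (maxSidon N : ℝ) / √N) atTop (𝓝 1) := by
  refine Metric.tendsto_nhds.2 fun ε hε => ?_
  have hs : Tendsto (fun N : ℕ => √√(N : ℝ)) atTop atTop :=
    Real.tendsto_sqrt_atTop.comp (Real.tendsto_sqrt_atTop.comp tendsto_natCast_atTop_atTop)
  filter_upwards [eventually_le_maxSidon (half_pos hε), hs.eventually_gt_atTop (max 1 (2 / ε))]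
    with N hlo hbig
  set q := √√(N : ℝ) with hq
  have hq1 : 1 < q := lt_of_le_of_lt (le_max_left _ _) hbig
  have hq2 : q ^ 2 = √(N : ℝ) := Real.sq_sqrt (Real.sqrt_nonneg _)
  have hqε : 2 < q * ε := (div_lt_iff₀ hε).1 (lt_of_le_of_lt (le_max_right _ _) hbig)
  have hup := maxSidon_le N
  rw [← hq] at hup
  rw [← hq2] at hup hlo ⊢
  have hq0 : 0 < q ^ 2 := by positivity
  rw [Real.dist_eq, abs_lt, lt_sub_iff_add_lt, sub_lt_iff_lt_add, lt_div_iff₀ hq0,
    div_lt_iff₀ hq0]
  constructor <;> nlinarith [mul_lt_mul_of_pos_right hqε (zero_lt_one.trans hq1)]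

end FA.Sidon
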