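import Fermat.Agent.Sidon.UpperBound
import Mathlib.FieldTheory.Finite.GaloisField
import Mathlib.RingTheory.IntegralDomain
import Mathlib.Tactic.LinearCombination

/-!
# The Bose-Chowla construction

For a prime `p` and a generator `θ` of the units of the field with `p ²` elements, the discrete
logarithms of `θ + x`, `x ∈ 𝔽ₚ`, have distinct pairwise sums modulo `p ² - 1`.
-/

set_option autoImplicit false

namespace FA.Sidon

open Finset

/-- **The Bose-Chowla theorem.** -/
theorem exists_bose_set {p : ℕ} (hp : p.Prime) :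
    ∃ A : Finset ℕ, A ⊆ Icc 1 (p ^ 2 - 1) ∧ A.card = p ∧
      ∀ a ∈ A, ∀ b ∈ A, ∀ c ∈ A, ∀ d ∈ A, (a + b) % (p ^ 2 - 1) = (c + d) % (p ^ 2 - 1) →
        (a = c ∧ b = d) ∨ (a = d ∧ b = c) := by
  classical
  have : Fact p.Prime := ⟨hp⟩
  let F := GaloisField p 2
  have : Finite F := Module.finite_of_finite (ZMod p)
  have hcard : Nat.card F = p ^ 2 := GaloisField.card p 2 two_ne_zero
  obtain ⟨θ, hθ⟩ := IsCyclic.exists_ofOrder_eq_natCard (α := Fˣ)
  rw [Nat.card_units, hcard] at hθ
  set ι := algebraMap (ZMod p) F with hι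
  have hout : ∀ c : ZMod p, (θ : F) ≠ ι c := by
    intro c hc
    rcases eq_or_ne c 0 with rfl | hc0
    · rw [map_zero] at hc
      exact θ.ne_zero hc
    have h1 : θ ^ (p - 1) = 1 := Units.ext (by
      rw [Units.val_pow_eq_pow_val, hc, ← map_pow, ZMod.pow_card_sub_one_eq_one hc0, map_one,
        Units.val_one])
    have h2 := Nat.le_of_dvd (Nat.sub_pos_of_lt hp.one_lt) (hθ ▸ orderOf_dvd_of_pow_eq_one h1)
    have h3 := hp.two_le
    have h4 : 2 * p ≤ p ^ 2 := by rw [pow_two]; exact Nat.mul_le_mul_right p h3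
    omega
  have hex : ∀ x : ZMod p, ∃ a < p ^ 2 - 1, ((θ ^ a : Fˣ) : F) = θ + ι x := by
    intro x
    have hne : (θ : F) + ι x ≠ 0 := fun h => hout (-x) (by rw [map_neg]; linear_combination h)
    have hmem : Units.mk0 _ hne ∈ Subgroup.zpowers θ := by
      rw [Subgroup.eq_top_of_card_eq (Subgroup.zpowers θ)
        (by rw [Nat.card_zpowers, hθ, Nat.card_units, hcard])]
      exact Subgroup.mem_top _
    rw [← mem_powers_iff_mem_zpowers, mem_powers_iff_mem_range_orderOf, mem_image] at hmem
    obtain ⟨a, ha, hae⟩ := hmem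
    rw [mem_range, hθ] at ha
    exact ⟨a, ha, by rw [hae, Units.val_mk0]⟩
  choose f hf1 hf2 using hex
  have hinj : Function.Injective f := fun x y h => by
    have := hf2 x
    rw [h, hf2 y, add_right_inj] at this
    exact (ι.injective this).symm
  refine ⟨univ.image fun x => f x + 1, fun a ha => ?_, ?_, ?_⟩
  · obtain ⟨x, -, rfl⟩ := mem_image.1 ha
    rw [mem_Icc]
    have := hf1 x
    omega
  · rw [card_image_of_injective _ fun x y h => hinj (Nat.succ_injective h), card_univ, ZMod.card]
  simp only [mem_image, mem_univ, true_and, forall_exists_index, forall_apply_eq_imp_iff]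
  intro x y u v h
  have h' : (f x + f y) % orderOf θ = (f u + f v) % orderOf θ := by
    rw [hθ]
    exact Nat.ModEq.add_right_cancel' 2 (show (f x + f y + 2) % _ = (f u + f v + 2) % _ by
      convert h using 2 <;> ring)
  have h2 := pow_eq_pow_iff_modEq.2 h'
  rw [pow_add, pow_add] at h2
  have h3 := congrArg Units.val h2
  rw [Units.val_mul, Units.val_mul, hf2, hf2, hf2, hf2] at h3
  have h4 : ι (x + y - u - v) * θ = ι (u * v - x * y) := by
    simp only [map_sub, map_add, map_mul]
    linear_combination h3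
  have hsum : x + y - u - v = 0 := by
    by_contra hne
    refine hout ((u * v - x * y) / (x + y - u - v)) ?_
    rw [map_div₀, eq_div_iff ((map_ne_zero ι).2 hne), mul_comm, h4]
  have hprod : u * v - x * y = 0 := ι.injective (by rw [← h4, hsum, map_zero, zero_mul])
  have h5 : (x - u) * (x - v) = 0 := by linear_combination hprod + x * hsum
  rcases mul_eq_zero.1 h5 with h6 | h6
  · obtain rfl : x = u := sub_eq_zero.1 h6
    obtain rfl : y = v := by linear_combination hsum
    exact Or.inl ⟨rfl, rfl⟩
  · obtain rfl : x = v := sub_eq_zero.1 h6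
    obtain rfl : y = u := by linear_combination hsum
    exact Or.inr ⟨rfl, rfl⟩

end FA.Sidon
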