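import Mathlib.Algebra.Order.Chebyshev
import Mathlib.Algebra.BigOperators.Intervals
import Mathlib.Order.Interval.Finset.Nat
import Mathlib.Analysis.Real.Sqrt
import Mathlib.Tactic.Linarith
import Mathlib.Tactic.Ring
import Mathlib.Tactic.Positivity

/-!
# The upper bound for Sidon sets

A set of integers in `[1, N]` with distinct pairwise sums has at most `√N + N ^ (1/4) + 1`
elements: count the pairs inside the windows of length `T ≈ N ^ (3/4)` (Erdős and Turán).
-/

set_option autoImplicit false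

namespace FA.Sidon

open Finset

/-- All pairwise sums are distinct. -/
def IsSidonSet (A : Finset ℕ) : Prop :=
  ∀ a ∈ A, ∀ b ∈ A, ∀ c ∈ A, ∀ d ∈ A, a + b = c + d → (a = c ∧ b = d) ∨ (a = d ∧ b = c)

theorem two_mul_sum_sub (T : ℕ) : 2 * ∑ d ∈ Ico 1 T, (T - d) = T * (T - 1) := by
  rw [← sum_range_id_mul_two T, mul_comm, sum_Ico_eq_sum_range]
  congr 1
  rcases Nat.eq_zero_or_pos T with rfl | hT
  · simp
  obtain ⟨n, rfl⟩ := Nat.exists_eq_succ_of_ne_zero hT.ne'
  rw [Nat.succ_sub_one, sum_range_succ', add_zero, ← sum_range_reflect]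
  refine sum_congr rfl fun i hi => ?_
  rw [mem_range] at hi
  omega

variable {A : Finset ℕ}

theorem sum_lt_pairs_le (hA : IsSidonSet A) (T : ℕ) :
    ∑ z ∈ (A ×ˢ A).filter (fun z => z.1 < z.2), (T - (z.2 - z.1)) ≤ ∑ d ∈ Ico 1 T, (T - d) := by
  set S := (A ×ˢ A).filter (fun z => z.1 < z.2) with hS
  have h1 : ∑ z ∈ S, (T - (z.2 - z.1)) =
      ∑ z ∈ S.filter (fun z => z.2 - z.1 < T), (T - (z.2 - z.1)) := by
    refine (sum_filter_of_ne fun z _ hne => ?_).symm
    omega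
  have hinj : Set.InjOn (fun z : ℕ × ℕ => z.2 - z.1)
      (S.filter fun z => z.2 - z.1 < T : Finset _) := by
    intro z hz w hw he
    simp only [coe_filter, Set.mem_ofPred_eq, hS, mem_filter, mem_product] at hz hw
    obtain ⟨⟨⟨z1, z2⟩, z3⟩, -⟩ := hz
    obtain ⟨⟨⟨w1, w2⟩, w3⟩, -⟩ := hw
    simp only at he
    rcases hA _ z2 _ w1 _ w2 _ z1 (by omega) with ⟨e1, e2⟩ | ⟨e1, e2⟩
    · exact Prod.ext e2.symm e1
    · omega
  rw [h1, ← sum_image (f := fun d => T - d) hinj]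
  refine sum_le_sum_of_subset fun d hd => ?_
  obtain ⟨z, hz, rfl⟩ := mem_image.1 hd
  rw [mem_filter, hS, mem_filter] at hz
  rw [mem_Ico]
  omega

theorem sum_windows_sq (T N : ℕ) (hA : A ⊆ Icc 1 N) :
    ∑ s ∈ Ico 1 (N + T), ((A.filter fun a => s ∈ Ico a (a + T)).card) ^ 2 =
      ∑ z ∈ A ×ˢ A, (Ico z.1 (z.1 + T) ∩ Ico z.2 (z.2 + T)).card := by
  have e : ∀ s, ((A.filter fun a => s ∈ Ico a (a + T)).card) ^ 2 =
      ∑ z ∈ A ×ˢ A, if s ∈ Ico z.1 (z.1 + T) ∩ Ico z.2 (z.2 + T) then 1 else 0 := by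
    intro s
    rw [sum_boole, Nat.cast_id, pow_two, ← card_product, ← filter_product]
    simp only [mem_inter]
  simp only [e]
  rw [sum_comm]
  refine sum_congr rfl fun z hz => ?_
  rw [sum_boole, Nat.cast_id, filter_mem_eq_inter]
  refine congrArg card (inter_eq_right.2 fun s hs => ?_)
  rw [mem_product] at hz
  have := mem_Icc.1 (hA hz.1)
  simp only [mem_inter, mem_Ico] at hs ⊢
  omega

theorem window_inequality (hs : IsSidonSet A) {N : ℕ} (hA : A ⊆ Icc 1 N) (T : ℕ) :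
    (T * A.card) ^ 2 ≤ (N + T - 1) * (T * A.card + T * (T - 1)) := by
  have h1 := sq_sum_le_card_mul_sum_sq (s := Ico 1 (N + T))
    (f := fun s => (A.filter fun a => s ∈ Ico a (a + T)).card)
  rw [Nat.card_Ico, Nat.cast_id] at h1
  have h2 : ∑ s ∈ Ico 1 (N + T), (A.filter fun a => s ∈ Ico a (a + T)).card = T * A.card := by
    simp only [card_filter]
    rw [sum_comm, mul_comm T, ← smul_eq_mul, ← sum_const]
    refine sum_congr rfl fun a ha => ?_
    rw [sum_boole, Nat.cast_id, filter_mem_eq_inter, inter_eq_right.2, Nat.card_Ico,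
      Nat.add_sub_cancel_left]
    refine Ico_subset_Ico (mem_Icc.1 (hA ha)).1 ?_
    have := (mem_Icc.1 (hA ha)).2
    omega
  rw [h2, sum_windows_sq T N hA] at h1
  refine h1.trans (Nat.mul_le_mul_left _ ?_)
  have e : ∀ z : ℕ × ℕ, (Ico z.1 (z.1 + T) ∩ Ico z.2 (z.2 + T)).card =
      if z.1 = z.2 then T else
        if z.1 < z.2 then T - (z.2 - z.1) else T - (z.1 - z.2) := by
    intro z
    rw [Ico_inter_Ico, Nat.card_Ico]
    split_ifs <;> omega
  simp only [e]
  rw [sum_ite, sum_const, smul_eq_mul, sum_ite]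
  refine add_le_add (le_of_eq ?_) ?_
  · rw [mul_comm, ← diag_eq_filter, diag_card]
  · rw [filter_filter, filter_filter, ← two_mul_sum_sub T, two_mul]
    refine add_le_add ?_ ?_
    · refine le_trans (le_of_eq (sum_congr (filter_congr fun z _ => ?_) fun _ _ => rfl))
        (sum_lt_pairs_le hs T)
      omega
    · refine le_trans (le_of_eq ?_) (sum_lt_pairs_le hs T)
      refine sum_nbij' (fun z => (z.2, z.1)) (fun z => (z.2, z.1)) ?_ ?_ (fun _ _ => rfl)
        (fun _ _ => rfl) fun _ _ => rfl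
      · intro z hz
        simp only [mem_filter, mem_product] at hz ⊢
        exact ⟨hz.1.symm, by omega⟩
      · intro z hz
        simp only [mem_filter, mem_product] at hz ⊢
        exact ⟨hz.1.symm, by omega, by omega⟩

/-- **The Erdős-Turán bound** `|A| ≤ √N + N ^ (1/4) + 1`. -/
theorem card_le_sqrt_add (hs : IsSidonSet A) {N : ℕ} (hA : A ⊆ Icc 1 N) :
    (A.card : ℝ) ≤ √N + √√N + 1 := by
  rcases Nat.eq_zero_or_pos N with rfl | hN
  · have : A = ∅ := subset_empty.1 (hA.trans (by simp))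
    rw [this]
    simp only [card_empty, Nat.cast_zero, Real.sqrt_zero]
    norm_num
  set q := √√(N : ℝ) with hq
  have hN0 : (0 : ℝ) < N := by exact_mod_cast hN
  have hq0 : 0 < q := by positivity
  have hq2 : q ^ 2 = √N := Real.sq_sqrt (Real.sqrt_nonneg _)
  have hq4 : (q ^ 2) ^ 2 = N := by rw [hq2, Real.sq_sqrt hN0.le]
  set T := ⌊q ^ 3⌋₊ + 1 with hT
  have h := window_inequality hs hA T
  have hT1 : (1 : ℕ) ≤ T := Nat.le_add_left _ _
  set k := (A.card : ℝ) with hk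
  have h' : ((T : ℝ) * k) ^ 2 ≤ ((N : ℝ) + T - 1) * ((T : ℝ) * k + T * ((T : ℝ) - 1)) := by
    have := (Nat.cast_le (α := ℝ)).2 h
    clear_value T
    push_cast [Nat.cast_sub (show 1 ≤ N + T by omega), Nat.cast_sub hT1] at this
    exact this
  have hTlo : q ^ 3 ≤ (T : ℝ) := by
    rw [hT]
    push_cast
    exact (Nat.lt_floor_add_one _).le
  have hThi : (T : ℝ) - 1 ≤ q ^ 3 := by
    rw [hT]
    push_cast
    rw [add_sub_cancel_right]
    exact Nat.floor_le (by positivity)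
  have hT0 : (0 : ℝ) < T := by exact_mod_cast hT1
  have hT1' : (1 : ℝ) ≤ T := by exact_mod_cast hT1
  have h1 : (T : ℝ) * k ^ 2 ≤ ((N : ℝ) + T - 1) * (k + ((T : ℝ) - 1)) :=
    le_of_mul_le_mul_left (by nlinarith) hT0
  have h2 : ((N : ℝ) + T - 1) ≤ T * (q + 1) := by nlinarith
  have h3 : ((N : ℝ) + T - 1) * ((T : ℝ) - 1) ≤ T * (N + q ^ 3) := by nlinarith
  have hk0 : 0 ≤ k := Nat.cast_nonneg _
  have h4 : k ^ 2 ≤ (q + 1) * k + (N + q ^ 3) :=
    le_of_mul_le_mul_left (by nlinarith [mul_le_mul_of_nonneg_right h2 hk0]) hT0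
  show k ≤ √N + q + 1
  rw [← hq2]
  by_contra hlt
  rw [not_le] at hlt
  have h5 : q ^ 2 * (q ^ 2 + q + 1) ≤ (k - (q + 1)) * k :=
    mul_le_mul (by linarith) hlt.le (by positivity) (by nlinarith)
  nlinarith [pow_pos hq0 2]

end FA.Sidon
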